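import Fermat.Agent.P2.Tate.Two
import Fermat.Agent.P2.Defs
import Fermat.Agent.FrobExists

/-! # The local fields of `GalData` for the auxiliary curve

* `signHom_eq_eta` : the sign character is the unramified character `eta` of `P2/Defs`;
* `stRel_of_model` : the Steinberg relation `StRel` for a matrix model of `T_2 W`;
* `ram_of_model` : inertia at a prime with `v_q(Δ)` odd acts non trivially modulo `2`.
-/

set_option autoImplicit false

namespace Fermat.Agent.P2.TateLoc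

open WeierstrassCurve WeierstrassCurve.Affine Fermat.Agent.ECRed Fermat.Agent.LOC.TatePhi
open Fermat.Agent.LOC Fermat.Agent.LOC.TateHom
open scoped WeierstrassCurve.Affine Classical

local notation "Qb" => AlgebraicClosure ℚ
local notation "Γℚ" => (AlgebraicClosure ℚ ≃ₐ[ℚ] AlgebraicClosure ℚ)

section

variable {A : ValuationSubring (AlgebraicClosure ℚ)} {q : ℕ}
variable {W : WeierstrassCurve ℤ} {x₀ y₀ α β : Qb}
variable (hF : NodeCentre A.valuation ((W.map (Int.castRingHom ℚ)).baseChange Qb) x₀ y₀ α β)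

/-- In the split case the sign is trivial. -/
theorem signHom_of_isSplit (hq : q.Prime) (hA : A.LiesOverPrime q) (hs : IsSplit W q)
    (g : A.decompositionSubgroup ℚ) : signHom hF g = 1 := by
  have hprod := hF.prod
  have hsum := hF.sum
  rw [baseChange_int_a₂] at hprod
  rw [baseChange_int_a₁] at hsum
  have hnear : ∀ {z : Qb} {n : ℤ}, A.valuation (z - n) < 1 →
      A.valuation ((g : Γℚ) z - z) < 1 := by
    intro z n h
    have h1 : A.valuation ((g : Γℚ) z - n) < 1 := by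
      have := decomposition_valuation A g.2 (z - n)
      rw [map_sub, map_intCast] at this
      rw [this]; exact h
    have : (g : Γℚ) z - z = ((g : Γℚ) z - n) - (z - n) := by ring
    rw [this]
    exact A.valuation.map_sub_lt h1 h
  obtain ⟨x, y, t, e1, e2, e3, e4⟩ := hs
  have hx := near_centre hF hq hA e1 e2 e3
  rw [← valuation_int_lt_one_iff hq hA] at e4
  push_cast at e4
  have h4 : A.valuation (((t : Qb) - α) * (t - β)) < 1 := by
    have : ((t : Qb) - α) * (t - β) =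
        ((t : Qb) ^ 2 + W.a₁ * t - (W.a₂ + 3 * x)) + 3 * (x - x₀) := by
      linear_combination (-(t : Qb)) * hsum + hprod
    rw [this]
    exact A.valuation.map_add_lt e4 (v_imul_lt v_three_le_one hx)
  have hcase : A.valuation ((t : Qb) - α) < 1 ∨ A.valuation ((t : Qb) - β) < 1 := by
    by_contra hcon
    push Not at hcon
    rw [map_mul] at h4
    exact absurd h4 (not_lt.mpr (one_le_mul hcon.1 hcon.2))
  rcases hcase with h5 | h5
  · exact signHom_of_near hF (hnear (by rwa [Valuation.map_sub_swap]))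
  · have h6 := hnear (z := β) (n := t) (by rwa [Valuation.map_sub_swap])
    rw [signHom_eq_one_iff]
    obtain ⟨-, -, ⟨h7, -⟩ | ⟨-, h7⟩⟩ := tangents hF g.2
    · exact h7
    · rw [h7, hF.sub] at h6
      exact absurd h6 (lt_irrefl _)

lemma residue_smul_eq (g : A.decompositionSubgroup ℚ) {z w : Qb} (hz : z ∈ A) (hw : w ∈ A)
    (h : (g : Γℚ) z = w) :
    g • IsLocalRing.residue A ⟨z, hz⟩ = IsLocalRing.residue A ⟨w, hw⟩ := by
  have : g • (⟨z, hz⟩ : A) = ⟨w, hw⟩ := Subtype.ext h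
  rw [← this]
  rfl

/-- In the non split case the sign is the action on `𝔽_{q²}`. -/
theorem signHom_eq_one_iff_not_odd (hq : q.Prime) (hA : A.LiesOverPrime q) (hs : ¬ IsSplit W q)
    (g : A.decompositionSubgroup ℚ) : signHom hF g = 1 ↔ ¬ IsOddAt A q (g : Γℚ) := by
  have : Fact q.Prime := ⟨hq⟩
  obtain ⟨φ, hφ⟩ := FrobExists.exists_isFrobeniusAt A hq hA
  have hfrob := signHom_frobenius hF hq hA hφ
  rw [splitSign, if_neg hs] at hfrob
  have hφne : φ α ≠ α := by
    intro h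
    rw [(signHom_eq_one_iff hF ⟨φ, hφ.mem_decompositionSubgroup⟩).mpr h] at hfrob
    exact absurd hfrob (by decide)
  obtain ⟨hφα, hφβ⟩ : φ α = β ∧ φ β = α := by
    obtain ⟨-, -, ⟨h, -⟩ | h⟩ := tangents hF hφ.mem_decompositionSubgroup
    · exact absurd h hφne
    · exact h
  have mα : α ∈ A := (A.valuation_le_one_iff α).mp hF.int_α
  have mβ : β ∈ A := (A.valuation_le_one_iff β).mp hF.int_β
  set a := IsLocalRing.residue A ⟨α, mα⟩ with ha
  set b := IsLocalRing.residue A ⟨β, mβ⟩ with hb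
  have hab : a ≠ b := by
    intro h
    rw [ha, hb, ← sub_eq_zero, ← map_sub, IsLocalRing.residue_eq_zero_iff,
      A.valuation_lt_one_iff] at h
    have h' : A.valuation (α - β) < 1 := h
    rw [hF.sub] at h'
    exact lt_irrefl _ h'
  have e1 : a ^ q = b := by
    rw [← hφ.smul_residue_eq, ha, residue_smul_eq _ mα mβ hφα]
  have e2 : b ^ q = a := by
    rw [← hφ.smul_residue_eq, hb, residue_smul_eq _ mβ mα hφβ]
  have hchar : CharP (IsLocalRing.ResidueField A) q := EllRed.charP_residueField hq hA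
  -- elements of `𝔽_q` are fixed
  have hbot : ∀ z : IsLocalRing.ResidueField A, z ^ q = z → g • z = z := by
    intro z hz
    rw [← Subfield.mem_bot_iff_pow_eq_self, mem_bot_iff_intCast q] at hz
    obtain ⟨n, rfl⟩ := hz
    exact map_intCast (MulSemiringAction.toRingHom _ _ g) n
  rw [signHom_eq_one_iff]
  constructor
  · rintro h ⟨hg, x, hx, hne⟩
    apply hne
    have hga : g • a = a := by rw [ha, residue_smul_eq g mα mα h]
    have hd : a - b ≠ 0 := sub_ne_zero.mpr hab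
    have hxx : (x ^ q) ^ q = x := by rw [← pow_mul, ← sq]; exact hx
    have hsub : ∀ u w : IsLocalRing.ResidueField A, (u - w) ^ q = u ^ q - w ^ q :=
      fun u w => sub_pow_char u w
    set c := (x - x ^ q) / (a - b) with hc
    have hcq : c ^ q = c := by
      rw [hc, div_pow, hsub, hsub, hxx, e1, e2]
      rw [← neg_sub x (x ^ q), ← neg_sub a b, neg_div_neg_eq]
    have hdq : (x - c * a) ^ q = x - c * a := by
      have h1 : x - x ^ q = c * (a - b) := by rw [hc, div_mul_cancel₀ _ hd]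
      rw [hsub, mul_pow, hcq, e1]
      linear_combination -h1
    have h1 : g • c = c := hbot c hcq
    have h2 : g • (x - c * a) = x - c * a := hbot _ hdq
    have h3 : x = (x - c * a) + c * a := by ring
    change g • x = x
    rw [h3, smul_add, smul_mul', h1, h2, hga]
  · intro h
    by_contra hne
    apply h
    obtain ⟨hgα, -⟩ : (g : Γℚ) α = β ∧ (g : Γℚ) β = α := by
      obtain ⟨-, -, ⟨h', -⟩ | h'⟩ := tangents hF g.2
      · exact absurd h' hne
      · exact h'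
    refine ⟨g.2, a, by rw [sq, pow_mul, e1, e2], ?_⟩
    change g • a ≠ a
    rw [ha, residue_smul_eq g mα mβ hgα]
    exact fun h => hab h.symm

/-- **The sign character is `eta`.** -/
theorem signHom_eq_eta (hq : q.Prime) (hA : A.LiesOverPrime q) (g : A.decompositionSubgroup ℚ) :
    ((signHom hF g : ℤˣ) : ℤ) = eta A q ((splitSign W q : ℤˣ) : ℤ) (g : Γℚ) := by
  rw [eta]
  by_cases hs : IsSplit W q
  · rw [signHom_of_isSplit hF hq hA hs, splitSign, if_pos hs]
    simp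
  · have h := signHom_eq_one_iff_not_odd hF hq hA hs g
    rw [splitSign, if_neg hs]
    split_ifs with hodd
    · have : signHom hF g ≠ 1 := fun h1 => (h.mp h1) hodd
      rw [(Int.units_eq_one_or (signHom hF g)).resolve_left this]
    · rw [h.mpr hodd]
      rfl

end

/-- **The local structure of `T_p W`, with the character `eta`**, at any multiplicative prime. -/
theorem exists_tate_basis_eta (W : WeierstrassCurve ℤ) (hΔ0 : W.Δ ≠ 0) {q : ℕ} (hq : q.Prime)
    (hc4 : ¬ (q : ℤ) ∣ W.c₄) (hΔ : (q : ℤ) ∣ W.Δ) (A : ValuationSubring Qb)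
    (hA : A.LiesOverPrime q) (p : ℕ) [Fact p.Prime] :
    ∃ b : Module.Basis (Fin 2) ℤ_[p] (EllTate.tate W hΔ0 p).V,
      ∀ g ∈ A.decompositionSubgroup ℚ,
        (EllTate.tate W hΔ0 p).ρ g (b 0) =
          ((eta A q (((splitSign W q : ℤˣ) : ℤ) : ℤ_[p]) g) *
            LinearMap.det ((EllTate.tate W hΔ0 p).ρ g)) • b 0 ∧
        ∃ y : ℤ_[p], (EllTate.tate W hΔ0 p).ρ g (b 1) =
          y • b 0 + (eta A q (((splitSign W q : ℤˣ) : ℤ) : ℤ_[p]) g) • b 1 := by
  obtain ⟨x₀, y₀, α, β, hF, h⟩ := exists_tate_basis' W hΔ0 hq hc4 hΔ A hA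
  obtain ⟨b, hb⟩ := h p
  refine ⟨b, fun g hg => ?_⟩
  have he : eta A q (((splitSign W q : ℤˣ) : ℤ) : ℤ_[p]) g =
      (((signHom hF ⟨g, hg⟩ : ℤˣ) : ℤ) : ℤ_[p]) := by
    rw [signHom_eq_eta hF hq hA ⟨g, hg⟩, eta, eta]
    split_ifs <;> simp
  rw [he]
  exact hb ⟨g, hg⟩

/-- **The relation `StRel`** for the Tate module (as endomorphisms). -/
theorem stRel_tate (W : WeierstrassCurve ℤ) (hΔ0 : W.Δ ≠ 0) {q : ℕ} (hq : q.Prime)
    (hc4 : ¬ (q : ℤ) ∣ W.c₄) (hΔ : (q : ℤ) ∣ W.Δ) (A : ValuationSubring Qb)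
    (hA : A.LiesOverPrime q) (p : ℕ) [Fact p.Prime] :
    StRel A q (((splitSign W q : ℤˣ) : ℤ) : ℤ_[p])
      (fun g => LinearMap.det ((EllTate.tate W hΔ0 p).ρ g))
      (fun g => (EllTate.tate W hΔ0 p).ρ g) := by
  intro g hg h hh
  obtain ⟨b, hb⟩ := exists_tate_basis_eta W hΔ0 hq hc4 hΔ A hA p
  obtain ⟨hg0, -⟩ := hb g hg
  obtain ⟨hh0, y, hh1⟩ := hb h hh
  refine b.ext fun i => ?_
  rw [Algebra.algebraMap_eq_smul_one, Algebra.algebraMap_eq_smul_one]
  fin_cases i
  · change ((EllTate.tate W hΔ0 p).ρ g - _) (((EllTate.tate W hΔ0 p).ρ h - _) (b 0)) = 0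
    rw [LinearMap.sub_apply ((EllTate.tate W hΔ0 p).ρ h), hh0, LinearMap.smul_apply,
      Module.End.one_apply, ← sub_smul, map_smul, LinearMap.sub_apply, hg0,
      LinearMap.smul_apply, Module.End.one_apply, sub_self, smul_zero]
  · change ((EllTate.tate W hΔ0 p).ρ g - _) (((EllTate.tate W hΔ0 p).ρ h - _) (b 1)) = 0
    rw [LinearMap.sub_apply ((EllTate.tate W hΔ0 p).ρ h), hh1, LinearMap.smul_apply,
      Module.End.one_apply, add_sub_cancel_right, map_smul, LinearMap.sub_apply, hg0,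
      LinearMap.smul_apply, Module.End.one_apply, sub_self, smul_zero]

/-- Transport of `StRel` to a matrix model. -/
theorem stRel_of_model {p : ℕ} [Fact p.Prime] {ρ : GaloisRepAdic ℤ_[p]}
    {m : Γℚ →* Matrix (Fin 2) (Fin 2) ℤ_[p]} (hm : UDef.IsModel ρ m)
    {P : ValuationSubring Qb} {q : ℕ} {e : ℤ_[p]}
    (h : StRel P q e (fun g => LinearMap.det (ρ.ρ g)) (fun g => ρ.ρ g)) :
    StRel P q e (fun g => (m g).det) (fun g => m g) := by
  obtain ⟨b, hb⟩ := hm
  intro g hg g' hg'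
  have h1 := congrArg (LinearMap.toMatrix b b) (h g hg g' hg')
  rw [map_zero, LinearMap.toMatrix_mul, map_sub, map_sub, hb, hb] at h1
  have h2 : ∀ c : ℤ_[p], LinearMap.toMatrix b b (algebraMap ℤ_[p] (Module.End ℤ_[p] ρ.V) c) =
      algebraMap ℤ_[p] (Matrix (Fin 2) (Fin 2) ℤ_[p]) c := by
    intro c
    rw [Algebra.algebraMap_eq_smul_one, Algebra.algebraMap_eq_smul_one, map_smul,
      LinearMap.toMatrix_one]
  rw [h2, h2] at h1
  have h3 : LinearMap.det (ρ.ρ g) = (m g).det := by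
    rw [← hb, LinearMap.det_toMatrix]
  simp only [h3] at h1
  exact h1

/-- **Field `st`** of `GalData`. -/
theorem stRel_matrix (W : WeierstrassCurve ℤ) (hΔ0 : W.Δ ≠ 0) {q : ℕ} (hq : q.Prime)
    (hc4 : ¬ (q : ℤ) ∣ W.c₄) (hΔ : (q : ℤ) ∣ W.Δ) (A : ValuationSubring Qb)
    (hA : A.LiesOverPrime q) {p : ℕ} [Fact p.Prime]
    {m : Γℚ →* Matrix (Fin 2) (Fin 2) ℤ_[p]} (hm : UDef.IsModel (EllTate.tate W hΔ0 p) m) :
    StRel A q (((splitSign W q : ℤˣ) : ℤ) : ℤ_[p]) (fun g => (m g).det) (fun g => m g) :=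
  stRel_of_model hm (stRel_tate W hΔ0 hq hc4 hΔ A hA p)

/-- A matrix congruent to `1` modulo `2` acts trivially on `E[2]`. -/
theorem smul_eq_of_model (W : WeierstrassCurve ℤ) (hΔ0 : W.Δ ≠ 0)
    {m : Γℚ →* Matrix (Fin 2) (Fin 2) ℤ_[2]} (hm : UDef.IsModel (EllTate.tate W hΔ0 2) m)
    {σ : Γℚ} (h : ∀ i j, (2 : ℤ_[2]) ∣ (m σ - 1) i j)
    {P : ((W.map (Int.castRingHom ℚ))⁄Qb).Point} (hP : 2 • P = 0) : σ • P = P := by
  have hell := EllTate.isElliptic_of_Δ_ne_zero hΔ0
  obtain ⟨b, hb⟩ := hm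
  choose c hc using h
  let T := EllTate.ellTate (W.map (Int.castRingHom ℚ)) 2
  let b' : Module.Basis (Fin 2) ℤ_[2] T.V := b
  have hb' : LinearMap.toMatrix b' b' (T.ρ σ) = m σ := hb σ
  obtain ⟨v, hv⟩ := EllTate.proj_surjective (W := W.map (Int.castRingHom ℚ)) (p := 2) 1
    ⟨P, by rw [Submodule.mem_torsionBy_iff, natCast_zsmul, pow_one]; exact hP⟩
  have hkey : T.ρ σ v = v + (2 : ℤ_[2]) • (∑ j, ∑ i, (b'.repr v j * c i j) • b' i) := by
    have h1 : T.ρ σ = 1 + (2 : ℤ_[2]) • Matrix.toLin b' b' (Matrix.of c) := by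
      apply (LinearMap.toMatrix b' b').injective
      rw [hb', map_add, map_smul, LinearMap.toMatrix_one, LinearMap.toMatrix_toLin]
      ext i j
      have := hc i j
      rw [Matrix.sub_apply] at this
      rw [Matrix.add_apply, Matrix.smul_apply, Matrix.of_apply, smul_eq_mul, ← this]
      ring
    rw [h1, LinearMap.add_apply, Module.End.one_apply, LinearMap.smul_apply]
    congr 2
    conv_lhs => rw [← b'.sum_repr v]
    rw [map_sum]
    refine Finset.sum_congr rfl fun j _ => ?_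
    rw [map_smul, Matrix.toLin_self, Finset.smul_sum]
    refine Finset.sum_congr rfl fun i _ => ?_
    rw [smul_smul, Matrix.of_apply]
  have hproj := congrArg (EllTate.proj (W := W.map (Int.castRingHom ℚ)) (p := 2) 1) hkey
  rw [map_add, EllTate.proj_smul, EllTate.proj_ρ, hv] at hproj
  have hz : PadicInt.toZModPow (p := 2) 1 (2 : ℤ_[2]) = 0 := by
    rw [map_ofNat]; decide
  rw [hz, zero_smul, add_zero] at hproj
  exact congrArg Subtype.val hproj

/-- **Field `ram`** of `GalData`. -/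
theorem ram_of_model (W : WeierstrassCurve ℤ) (hΔ0 : W.Δ ≠ 0)
    {m : Γℚ →* Matrix (Fin 2) (Fin 2) ℤ_[2]} (hm : UDef.IsModel (EllTate.tate W hΔ0 2) m)
    {q : ℕ} (hq : q.Prime) (hodd : Odd (padicValInt q W.Δ)) (A : ValuationSubring Qb)
    (hA : A.LiesOverPrime q) :
    ∃ t ∈ A.inertiaSubgroupIn ℚ, ∃ i j, ¬ (2 : ℤ_[2]) ∣ (m t - 1) i j := by
  obtain ⟨σ, hσ, P, hP, hne⟩ := exists_inertia_two_ne W hΔ0 hq
    (by rw [← even_iff_two_dvd]; exact Nat.not_even_iff_odd.mpr hodd) A hA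
  refine ⟨σ, hσ, ?_⟩
  by_contra hcon
  push Not at hcon
  exact hne (smul_eq_of_model W hΔ0 hm hcon hP)


lemma eta_cast {R : Type*} [Ring R] (A : ValuationSubring Qb) (q : ℕ) (s : ℤ) (g : Γℚ) :
    ((eta A q s g : ℤ) : R) = eta A q (s : R) g := by
  rw [eta, eta]
  split_ifs <;> simp

/-- **The Steinberg relation on points**, for all `p ^ n` (any `p`, `q = p` allowed). -/
theorem steinberg_points (W : WeierstrassCurve ℤ) (hΔ0 : W.Δ ≠ 0) {q : ℕ} (hq : q.Prime)
    (hc4 : ¬ (q : ℤ) ∣ W.c₄) (hΔ : (q : ℤ) ∣ W.Δ) (A : ValuationSubring Qb)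
    (hA : A.LiesOverPrime q) (p : ℕ) [hp : Fact p.Prime] (n : ℕ) {g h : Γℚ}
    (hg : g ∈ A.decompositionSubgroup ℚ) (hh : h ∈ A.decompositionSubgroup ℚ) {b : ℕ}
    (hb : ∀ μ : Qb, μ ^ p ^ n = 1 → g μ = μ ^ b)
    {x : ((W.map (Int.castRingHom ℚ))⁄Qb).Point} (hx : p ^ n • x = 0) :
    g • (h • x - eta A q ((splitSign W q : ℤˣ) : ℤ) h • x) =
      (eta A q ((splitSign W q : ℤˣ) : ℤ) g * b) •
        (h • x - eta A q ((splitSign W q : ℤˣ) : ℤ) h • x) := by
  have hell := EllTate.isElliptic_of_Δ_ne_zero hΔ0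
  let T := EllTate.ellTate (W.map (Int.castRingHom ℚ)) p
  have hst : StRel A q (((splitSign W q : ℤˣ) : ℤ) : ℤ_[p]) (fun g => LinearMap.det (T.ρ g))
      (fun g => T.ρ g) := stRel_tate W hΔ0 hq hc4 hΔ A hA p
  have hdet : T.DetIsCyclotomic p := EllTate.tate_detIsCyclotomic hΔ0
  obtain ⟨v, hv⟩ := EllTate.proj_surjective (W := W.map (Int.castRingHom ℚ)) (p := p) n
    ⟨x, by rw [Submodule.mem_torsionBy_iff, natCast_zsmul]; exact hx⟩
  have h1 := hst g hg h hh
  set s : ℤ := ((splitSign W q : ℤˣ) : ℤ)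
  have hd : PadicInt.toZModPow (p := p) n (LinearMap.det (T.ρ g)) = (b : ZMod (p ^ n)) := by
    have h2 := hdet.2 n g b hb
    have h3 : LinearMap.det (T.ρ g) - (b : ℤ_[p]) ∈ RingHom.ker (PadicInt.toZModPow (p := p) n) := by
      rw [PadicInt.ker_toZModPow]
      have h4 : ((p ^ n : ℕ) : ℤ_[p]) = (p : ℤ_[p]) ^ n := by push_cast; ring
      rw [h4] at h2
      exact h2
    rw [RingHom.mem_ker, map_sub, sub_eq_zero, map_natCast] at h3
    exact h3
  set eg : ℤ := eta A q s g with heg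
  set eh : ℤ := eta A q s h with heh
  have hcg : eta A q (s : ℤ_[p]) g = (eg : ℤ_[p]) := (eta_cast A q s g).symm
  have hch : eta A q (s : ℤ_[p]) h = (eh : ℤ_[p]) := (eta_cast A q s h).symm
  have h5 : T.ρ g (T.ρ h v - (eh : ℤ_[p]) • v) =
      ((eg : ℤ_[p]) * LinearMap.det (T.ρ g)) • (T.ρ h v - (eh : ℤ_[p]) • v) := by
    have h6 := LinearMap.congr_fun h1 v
    rw [hcg, hch] at h6
    simp only [Module.End.mul_apply, LinearMap.sub_apply, Module.algebraMap_end_apply,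
      LinearMap.zero_apply] at h6
    exact sub_eq_zero.mp h6
  have h7 := congrArg (EllTate.proj (W := W.map (Int.castRingHom ℚ)) (p := p) n) h5
  rw [EllTate.proj_ρ, EllTate.proj_smul, map_sub, EllTate.proj_ρ, EllTate.proj_smul, hv, map_mul,
    hd, map_intCast, map_intCast] at h7
  have h8 : ∀ (k : ℤ) (y : Submodule.torsionBy ℤ ((W.map (Int.castRingHom ℚ))⁄Qb).Point
      ((p ^ n : ℕ) : ℤ)), ((k : ZMod (p ^ n)) • y : Submodule.torsionBy ℤ
        ((W.map (Int.castRingHom ℚ))⁄Qb).Point ((p ^ n : ℕ) : ℤ)) = k • y := by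
    intro k y
    rw [Int.cast_smul_eq_zsmul]
  have h9 : ((eg : ZMod (p ^ n)) * (b : ZMod (p ^ n))) = ((eg * b : ℤ) : ZMod (p ^ n)) := by
    push_cast; ring
  rw [h9, h8, h8] at h7
  exact congrArg Subtype.val h7

/-- The form used in the assembly of `GalData`. -/
theorem stPts (W : WeierstrassCurve ℤ) (hss : W.IsSemistableModel) (hΔ : W.Δ ≠ 0) {q : ℕ}
    (hq : q.Prime) (hqΔ : (q : ℤ) ∣ W.Δ) :
    ∃ s : ℤ, (s = 1 ∨ s = -1) ∧ ∀ P : ValuationSubring (AlgebraicClosure ℚ),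
      P.LiesOverPrime q → ∀ n : ℕ, ∀ g ∈ P.decompositionSubgroup ℚ,
      ∀ h ∈ P.decompositionSubgroup ℚ, ∀ b : ℕ,
      (∀ μ : AlgebraicClosure ℚ, μ ^ 2 ^ n = 1 → g μ = μ ^ b) →
      ∀ x : ((W.map (Int.castRingHom ℚ))⁄(AlgebraicClosure ℚ)).Point, 2 ^ n • x = 0 →
        g • (h • x - eta P q s h • x) = (eta P q s g * b) • (h • x - eta P q s h • x) := by
  refine ⟨((splitSign W q : ℤˣ) : ℤ), ?_, fun P hP n g hg h hh b hb x hx =>
    steinberg_points W hΔ hq (hss q hq hqΔ) hqΔ P hP 2 n hg hh hb hx⟩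
  rcases Int.units_eq_one_or (splitSign W q) with h | h <;> rw [h]
  · exact Or.inl rfl
  · exact Or.inr rfl

end Fermat.Agent.P2.TateLoc
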