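import Fermat.Agent.LOC.TateGalois

/-! # The unit part of the Tate parameter

For a valued algebraically closed field and a curve of multiplicative reduction (given by a
`NodeCentre`), the subgroup `E0` of points whose Tate parameter is the class of a unit.

* `card_E0` : its `N`-torsion has order `N` (`N = p ^ n`, `p` arbitrary);
* `smul_mem_E0`, `smul_sub_mem_E0` : isometries act on `E / E0` through an explicit sign.
-/

set_option autoImplicit false

namespace Fermat.Agent.P2.TateLoc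

open WeierstrassCurve WeierstrassCurve.Affine Fermat.Agent.ECRed Fermat.Agent.LOC.TatePhi
open Fermat.Agent.LOC Fermat.Agent.LOC.TateHom

variable {K Γ₀ : Type*} [Field K] [LinearOrderedCommGroupWithZero Γ₀] {v : Valuation K Γ₀}
variable {W : WeierstrassCurve K} {c : K}

/-- The classes of units. -/
def unitCls (v : Valuation K Γ₀) (c : K) : Subgroup (Q v c) :=
  (MonoidHom.ker ((v.toMonoidWithZeroHom : K →* Γ₀).comp (Units.coeHom K))).map (mkQ v c)

lemma mem_unitCls {q : Q v c} : q ∈ unitCls v c ↔ ∃ u : K, v u = 1 ∧ q = cls v c u := by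
  constructor
  · rintro ⟨u, hu, rfl⟩
    exact ⟨u, hu, (cls_units u).symm⟩
  · rintro ⟨u, hu, rfl⟩
    have hu0 : u ≠ 0 := by rw [← Valuation.pos_iff (v := v), hu]; exact one_pos
    exact ⟨Units.mk0 u hu0, hu, (cls_of_ne hu0).symm⟩

lemma cls_mem_unitCls {u : K} (hu : v u = 1) : cls v c u ∈ unitCls v c :=
  mem_unitCls.mpr ⟨u, hu, rfl⟩

/-- Powers of the class of an `N`-th root of `-c` are unit classes only for multiples of `N`. -/
lemma dvd_of_zpow_mem (hc1 : v c < 1) (hc : c ≠ 0) {N : ℕ} (hN : N ≠ 0) {t : K}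
    (ht : t ^ N = -c) {k : ℤ} (hk : cls v c t ^ k ∈ unitCls v c) : (N : ℤ) ∣ k := by
  have ht0 := root_ne_zero hc hN ht
  obtain ⟨u, hu, e⟩ := mem_unitCls.mp hk
  have hu0 : u ≠ 0 := by rw [← Valuation.pos_iff (v := v), hu]; exact one_pos
  rw [cls_of_ne ht0, cls_of_ne hu0, ← map_zpow, ← div_eq_one, ← map_div, mkQ_eq_one_iff] at e
  obtain ⟨m, w, hw, e⟩ := e
  have hw1 := v_eq_one_of_mem_oneUnits hw
  have e2 : v t ^ k = v t ^ ((N : ℤ) * m) := by
    have h1 := congrArg v e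
    simp only [Units.val_div_eq_div_val, Units.val_zpow_eq_zpow_val, Units.val_mk0, map_div₀,
      map_zpow₀, map_mul, hu, div_one, hw1, one_mul, ← ht, map_pow] at h1
    rw [h1, zpow_mul, zpow_natCast]
  have hvt0 : 0 < v t := (Valuation.pos_iff v).mpr ht0
  have hvt1 : v t ≠ 1 := by
    intro h
    have h1 : v (t ^ N) = v c := by rw [ht, Valuation.map_neg]
    rw [map_pow, h, one_pow] at h1
    exact absurd hc1 (by rw [← h1]; exact lt_irrefl _)
  exact ⟨m, zpow_right_injective₀ hvt0 hvt1 e2⟩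

section Galois

variable (σ : K →+* K) (hσ : ∀ z, v (σ z) = v z) (hc : σ c = c)

include hσ in
lemma qmap_mem_unitCls {q : Q v c} (hq : q ∈ unitCls v c) : qmap σ hσ hc q ∈ unitCls v c := by
  obtain ⟨u, hu, rfl⟩ := mem_unitCls.mp hq
  have hu0 : u ≠ 0 := by rw [← Valuation.pos_iff (v := v), hu]; exact one_pos
  rw [qmap_cls σ hσ hc hu0]
  exact cls_mem_unitCls (by rw [hσ, hu])

lemma qmap_div_mem_unitCls (q : Q v c) : qmap σ hσ hc q / q ∈ unitCls v c := by
  obtain ⟨u, rfl⟩ := mkQ_surjective v c q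
  have hu0 : (u : K) ≠ 0 := u.ne_zero
  rw [← cls_units, qmap_cls σ hσ hc hu0, ← cls_div ((map_ne_zero σ).mpr hu0) hu0]
  exact cls_mem_unitCls (by rw [map_div₀, hσ, div_self ((Valuation.ne_zero_iff v).mpr hu0)])

end Galois

section Count

variable [DecidableEq K]

/-- Points of the normal form with unit parameter. -/
noncomputable def nfE0 (hc1 : v c < 1) (hc : c ≠ 0) : AddSubgroup (nf c).toAffine.Point :=
  (Subgroup.toAddSubgroup (unitCls v c)).comap (phi hc1 hc)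

lemma mem_nfE0 {hc1 : v c < 1} {hc : c ≠ 0} {P : (nf c).toAffine.Point} :
    P ∈ nfE0 hc1 hc ↔ Additive.toMul (phi hc1 hc P) ∈ unitCls v c := Iff.rfl

lemma card_nfE0_of_exists [IsAlgClosed K] (hc1 : v c < 1) (hc : c ≠ 0) {N : ℕ}
    (hN : (N : K) ≠ 0) {t : K} (ht : t ^ N = -c) {T : (nf c).toAffine.Point} (hT : N • T = 0)
    (hφ : phi hc1 hc T = Additive.ofMul (cls v c t)) :
    Nat.card (nfE0 hc1 hc ⊓ tor _ N : AddSubgroup (nf c).toAffine.Point) = N := by
  have hN0 : N ≠ 0 := by rintro rfl; simp at hN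
  have hNpos : 0 < N := Nat.pos_of_ne_zero hN0
  have hmem : ∀ k : ℤ, k • T ∈ nfE0 hc1 hc → (N : ℤ) ∣ k := by
    intro k hk
    rw [mem_nfE0, map_zsmul, hφ] at hk
    exact dvd_of_zpow_mem hc1 hc hN0 ht hk
  let f : Fin N × (nfE0 hc1 hc ⊓ tor _ N : AddSubgroup (nf c).toAffine.Point) →
      tor (nf c).toAffine.Point N := fun x => ⟨(x.1 : ℕ) • T + x.2.1, by
    rw [mem_tor, smul_add, smul_comm, hT, smul_zero, zero_add]
    exact x.2.2.2⟩
  have hf : Function.Bijective f := by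
    constructor
    · rintro ⟨j, P⟩ ⟨j', P'⟩ h
      have h1 : (j : ℕ) • T + P.1 = (j' : ℕ) • T + P'.1 := congrArg Subtype.val h
      have h2 : ((j : ℤ) - (j' : ℤ)) • T = P'.1 - P.1 := by
        rw [sub_smul, natCast_zsmul, natCast_zsmul, sub_eq_sub_iff_add_eq_add, h1]
        exact add_comm _ _
      have h3 : (N : ℤ) ∣ (j : ℤ) - (j' : ℤ) := hmem _ (by
        rw [h2]; exact (nfE0 hc1 hc).sub_mem P'.2.1 P.2.1)
      have h4 : (j : ℤ) - (j' : ℤ) = 0 := by
        refine Int.eq_zero_of_abs_lt_dvd h3 ?_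
        have := j.2; have := j'.2
        rw [abs_lt]; constructor <;> omega
      have h5 : j = j' := Fin.ext (by omega)
      subst h5
      have h6 : P.1 = P'.1 := add_left_cancel h1
      exact Prod.ext rfl (Subtype.ext h6)
    · rintro ⟨P, hP⟩
      have hP' : N • P = 0 := hP
      have hq : (Additive.toMul (phi hc1 hc P)) ^ N = 1 := by
        have := congrArg (phi hc1 hc) hP'
        rw [map_nsmul, map_zero] at this
        exact this
      obtain ⟨s, hs, hs0, j, hj⟩ := exists_of_pow_eq_one hc hN0 ht hq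
      have hvs : v s = 1 := by
        have h1 : v (s ^ N) = 1 := by
          have := v.map_one_add_of_lt hs
          rwa [add_sub_cancel] at this
        rw [map_pow] at h1
        exact (pow_eq_one_iff_of_nonneg zero_le hN0).mp h1
      have hjT : j • T = ((j % N).toNat) • T := by
        have h0 := Int.emod_nonneg j (b := N) (by exact_mod_cast hN0)
        rw [← natCast_zsmul, Int.toNat_of_nonneg h0]
        conv_lhs => rw [← Int.mul_ediv_add_emod j N, add_smul, mul_comm, mul_smul, natCast_zsmul,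
          hT, smul_zero, zero_add]
      have hlt : (j % N).toNat < N := by
        have := Int.emod_lt_of_pos j (b := N) (by exact_mod_cast hNpos)
        omega
      refine ⟨⟨⟨(j % N).toNat, hlt⟩, ⟨P - j • T, ?_, ?_⟩⟩, Subtype.ext ?_⟩
      · change P - j • T ∈ nfE0 hc1 hc
        rw [mem_nfE0, map_sub, map_zsmul, hφ]
        have : Additive.toMul (phi hc1 hc P - j • Additive.ofMul (cls v c t)) = cls v c s := by
          change Additive.toMul (phi hc1 hc P) / (cls v c t) ^ j = _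
          rw [hj, mul_div_cancel_right]
        rw [this]
        exact cls_mem_unitCls hvs
      · change N • (P - j • T) = 0
        rw [smul_sub, hP', smul_comm, hT, smul_zero, sub_zero]
      · change (j % N).toNat • T + (P - j • T) = P
        rw [← hjT, add_sub_cancel]
  have h1 := Nat.card_congr (Equiv.ofBijective f hf)
  rw [Nat.card_prod, Nat.card_fin, card_tor_nf hc1 hc hN, sq] at h1
  exact Nat.eq_of_mul_eq_mul_left hNpos h1

/-- **The `p^n`-torsion of the unit part has order `p^n`** (any prime `p`). -/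
theorem card_nfE0 [IsAlgClosed K] (hc1 : v c < 1) (hc : c ≠ 0) {p : ℕ} (hp : p.Prime)
    (hp0 : (p : K) ≠ 0) (n : ℕ) :
    Nat.card (nfE0 hc1 hc ⊓ tor _ (p ^ n) : AddSubgroup (nf c).toAffine.Point) = p ^ n := by
  have hpn : ((p ^ n : ℕ) : K) ≠ 0 := by rw [Nat.cast_pow]; exact pow_ne_zero n hp0
  obtain ⟨t, ht⟩ := IsAlgClosed.exists_pow_nat_eq (-c) (pow_pos hp.pos n)
  rcases lt_or_eq_of_le (v_nat_le_one (v := v) p) with hvp | hvp
  · obtain ⟨T, hT, hφ⟩ := (card_and_exists_p hc1 hc hp hvp hp0 n).2 t ht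
    exact card_nfE0_of_exists hc1 hc hpn ht hT hφ
  · have hvn : v ((p ^ n : ℕ) : K) = 1 := by rw [Nat.cast_pow, map_pow, hvp, one_pow]
    obtain ⟨T, hT, hφ⟩ := exists_of_v_eq_one hc1 hc hvn
      (cls_root_pow hc (pow_ne_zero n hp.ne_zero) ht)
    exact card_nfE0_of_exists hc1 hc hpn ht hT hφ

end Count

section Curve

variable [DecidableEq K] {x₀ y₀ α β : K}

/-- The points with unit parameter. -/
noncomputable def E0 (h : NodeCentre v W x₀ y₀ α β) (hΔ0 : W.Δ ≠ 0) :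
    AddSubgroup W.toAffine.Point :=
  (nfE0 h.v_c_lt_one (h.c_ne_zero hΔ0)).comap h.equiv.toAddMonoidHom

lemma mem_E0 {h : NodeCentre v W x₀ y₀ α β} {hΔ0 : W.Δ ≠ 0} {P : W.toAffine.Point} :
    P ∈ E0 h hΔ0 ↔ Additive.toMul (phi h.v_c_lt_one (h.c_ne_zero hΔ0) (h.equiv P)) ∈
      unitCls v (tateC W x₀ y₀ α β) := Iff.rfl

theorem card_E0 [IsAlgClosed K] (h : NodeCentre v W x₀ y₀ α β) (hΔ0 : W.Δ ≠ 0) {p : ℕ}
    (hp : p.Prime) (hp0 : (p : K) ≠ 0) (n : ℕ) :
    Nat.card {P : W.toAffine.Point // P ∈ E0 h hΔ0 ∧ p ^ n • P = 0} = p ^ n := by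
  refine Eq.trans ?_ (card_nfE0 h.v_c_lt_one (h.c_ne_zero hΔ0) hp hp0 n)
  refine Nat.card_congr (h.equiv.toEquiv.subtypeEquiv fun P => ?_)
  refine and_congr Iff.rfl ?_
  change _ ↔ p ^ n • h.equiv P = 0
  rw [← map_nsmul, EmbeddingLike.map_eq_zero_iff]

variable (σ : K →+* K)

/-- Equivariance with the explicit sign `+1`. -/
theorem equivariant_pos (h : NodeCentre v W x₀ y₀ α β) (h2 : (2 : K) ≠ 0)
    (hσ : ∀ z, v (σ z) = v z)
    (h₁ : σ W.a₁ = W.a₁) (h₂ : σ W.a₂ = W.a₂) (h₃ : σ W.a₃ = W.a₃) (h₄ : σ W.a₄ = W.a₄)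
    (h₆ : σ W.a₆ = W.a₆) (s : W.toAffine.Point →+ W.toAffine.Point)
    (hs : ∀ x y h, ∃ h', s (.some x y h) = .some (σ x) (σ y) h') (ha : σ α = α) :
    ∃ s' : (nf (tateC W x₀ y₀ α β)).toAffine.Point →+ (nf (tateC W x₀ y₀ α β)).toAffine.Point,
      (∀ x y h, ∃ h', s' (.some x y h) = .some (σ x) (σ y) h') ∧
        ∀ P, h.equiv (s P) = s' (h.equiv P) := by
  obtain ⟨hx, hy, hαβ⟩ := h.unique h2 (h.map σ hσ h₁ h₂ h₃ h₄ h₆)
  have hd := h.sub_ne_zero
  have hb : σ β = β := by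
    rcases hαβ with ⟨-, hb⟩ | ⟨ha', -⟩
    · exact hb
    · exact absurd (ha.symm.trans ha') (sub_ne_zero.mp hd)
  let t : (nf (tateC W x₀ y₀ α β)).toAffine.Point →+ (nf (tateC W x₀ y₀ α β)).toAffine.Point :=
    h.equiv.toAddMonoidHom.comp (s.comp h.equiv.symm.toAddMonoidHom)
  have ht : ∀ P, t (h.equiv P) = h.equiv (s P) := fun P => by
    change h.equiv (s (h.equiv.symm (h.equiv P))) = _
    rw [AddEquiv.symm_apply_apply]
  refine ⟨t, ?_, fun P => (ht P).symm⟩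
  intro x' y' h'
  obtain ⟨P, hP⟩ := h.equiv.surjective (.some x' y' h')
  rcases P with _ | ⟨x, y, hxy⟩
  · exfalso
    have e : h.equiv (Point.zero : W.toAffine.Point) = 0 := map_zero _
    rw [e] at hP
    exact Point.some_ne_zero _ hP.symm
  · obtain ⟨h'', e⟩ := h.equiv_some hxy
    obtain ⟨g1, e1⟩ := hs x y hxy
    obtain ⟨g2, e2⟩ := h.equiv_some g1
    rw [← hP, ht, e1, e2]
    rw [e, Point.some.injEq] at hP
    obtain ⟨eX, eY⟩ := hP
    have eX' : σ x' = (σ x - x₀) / (α - β) ^ 2 := by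
      rw [← eX, map_div₀, map_sub, map_pow, map_sub, hx, ha, hb]
    have eY' : σ y' = (σ y - y₀ - α * (σ x - x₀)) / (α - β) ^ 3 := by
      rw [← eY, map_div₀, map_sub, map_sub, map_mul, map_sub, map_pow, map_sub, hx, hy, ha, hb]
    simp only [eX', eY']
    exact ⟨g2, trivial⟩

/-- Equivariance with the explicit sign `-1`. -/
theorem equivariant_neg (h : NodeCentre v W x₀ y₀ α β) (h2 : (2 : K) ≠ 0)
    (hσ : ∀ z, v (σ z) = v z)
    (h₁ : σ W.a₁ = W.a₁) (h₂ : σ W.a₂ = W.a₂) (h₃ : σ W.a₃ = W.a₃) (h₄ : σ W.a₄ = W.a₄)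
    (h₆ : σ W.a₆ = W.a₆) (s : W.toAffine.Point →+ W.toAffine.Point)
    (hs : ∀ x y h, ∃ h', s (.some x y h) = .some (σ x) (σ y) h') (hα : σ α ≠ α) :
    ∃ s' : (nf (tateC W x₀ y₀ α β)).toAffine.Point →+ (nf (tateC W x₀ y₀ α β)).toAffine.Point,
      (∀ x y h, ∃ h', s' (.some x y h) = .some (σ x) (σ y) h') ∧
        ∀ P, h.equiv (s P) = - s' (h.equiv P) := by
  obtain ⟨hx, hy, hαβ⟩ := h.unique h2 (h.map σ hσ h₁ h₂ h₃ h₄ h₆)
  have hd := h.sub_ne_zero
  obtain ⟨ha, hb⟩ : σ α = β ∧ σ β = α := by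
    rcases hαβ with ⟨ha, -⟩ | h'
    · exact absurd ha hα
    · exact h'
  let t : (nf (tateC W x₀ y₀ α β)).toAffine.Point →+ (nf (tateC W x₀ y₀ α β)).toAffine.Point :=
    h.equiv.toAddMonoidHom.comp (s.comp h.equiv.symm.toAddMonoidHom)
  have ht : ∀ P, t (h.equiv P) = h.equiv (s P) := fun P => by
    change h.equiv (s (h.equiv.symm (h.equiv P))) = _
    rw [AddEquiv.symm_apply_apply]
  refine ⟨-t, ?_, fun P => by rw [AddMonoidHom.neg_apply, ht, neg_neg]⟩
  intro x' y' h'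
  obtain ⟨P, hP⟩ := h.equiv.surjective (.some x' y' h')
  rcases P with _ | ⟨x, y, hxy⟩
  · exfalso
    have e : h.equiv (Point.zero : W.toAffine.Point) = 0 := map_zero _
    rw [e] at hP
    exact Point.some_ne_zero _ hP.symm
  · obtain ⟨h'', e⟩ := h.equiv_some hxy
    obtain ⟨g1, e1⟩ := hs x y hxy
    obtain ⟨g2, e2⟩ := h.equiv_some g1
    rw [← hP, AddMonoidHom.neg_apply, ht, e1, e2, Point.neg_some]
    rw [e, Point.some.injEq] at hP
    obtain ⟨eX, eY⟩ := hP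
    have hd' : β - α ≠ 0 := by rw [← neg_sub]; exact neg_ne_zero.mpr hd
    have eX' : σ x' = (σ x - x₀) / (α - β) ^ 2 := by
      rw [← eX, map_div₀, map_sub, map_pow, map_sub, hx, ha, hb]
      congr 1; ring
    have eY' : σ y' = (nf (tateC W x₀ y₀ α β)).toAffine.negY ((σ x - x₀) / (α - β) ^ 2)
        ((σ y - y₀ - α * (σ x - x₀)) / (α - β) ^ 3) := by
      rw [← eY, map_div₀, map_sub, map_sub, map_mul, map_sub, map_pow, map_sub, hx, hy, ha, hb,
        nf_negY]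
      rw [show (β - α) ^ 3 = -(α - β) ^ 3 by ring]
      field_simp
      ring
    simp only [eX', eY']
    exact ⟨(nonsingular_neg ..).mpr g2, trivial⟩

/-- The sign of an isometry on the two tangents. -/
noncomputable def sgn (α : K) (σ : K →+* K) : ℤˣ :=
  if σ α = α then 1 else -1

variable (h : NodeCentre v W x₀ y₀ α β) (hΔ0 : W.Δ ≠ 0) (h2 : (2 : K) ≠ 0)
    (hσ : ∀ z, v (σ z) = v z)
    (h₁ : σ W.a₁ = W.a₁) (h₂ : σ W.a₂ = W.a₂) (h₃ : σ W.a₃ = W.a₃) (h₄ : σ W.a₄ = W.a₄)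
    (h₆ : σ W.a₆ = W.a₆) (s : W.toAffine.Point →+ W.toAffine.Point)
    (hs : ∀ x y h, ∃ h', s (.some x y h) = .some (σ x) (σ y) h')

include h2 hσ h₁ h₂ h₃ h₄ h₆ hs

lemma exists_equivariant :
    ∃ s' : (nf (tateC W x₀ y₀ α β)).toAffine.Point →+ (nf (tateC W x₀ y₀ α β)).toAffine.Point,
      (∀ x y h, ∃ h', s' (.some x y h) = .some (σ x) (σ y) h') ∧
        ∀ P, h.equiv (s P) = (sgn α σ : ℤ) • s' (h.equiv P) := by
  rw [sgn]
  split_ifs with ha
  · obtain ⟨s', h1, h2⟩ := equivariant_pos σ h h2 hσ h₁ h₂ h₃ h₄ h₆ s hs ha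
    exact ⟨s', h1, fun P => by rw [h2, Units.val_one, one_smul]⟩
  · obtain ⟨s', h1, h2⟩ := equivariant_neg σ h h2 hσ h₁ h₂ h₃ h₄ h₆ s hs ha
    exact ⟨s', h1, fun P => by rw [h2, Units.val_neg, Units.val_one, neg_smul, one_smul]⟩

/-- `E0` is stable. -/
theorem smul_mem_E0 {P : W.toAffine.Point} (hP : P ∈ E0 h hΔ0) : s P ∈ E0 h hΔ0 := by
  obtain ⟨s', hs', he⟩ := exists_equivariant σ h h2 hσ h₁ h₂ h₃ h₄ h₆ s hs
  have hc := h.map_c h2 σ hσ h₁ h₂ h₃ h₄ h₆
  rw [mem_E0] at hP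
  have key : s' (h.equiv P) ∈ nfE0 h.v_c_lt_one (h.c_ne_zero hΔ0) := by
    rw [mem_nfE0, phi_map σ hσ hc h.v_c_lt_one (h.c_ne_zero hΔ0) s' hs', toMul_ofMul]
    exact qmap_mem_unitCls σ hσ hc hP
  change h.equiv (s P) ∈ nfE0 h.v_c_lt_one (h.c_ne_zero hΔ0)
  rw [he]
  exact AddSubgroup.zsmul_mem _ key _

/-- The action on `E / E0` is by the sign. -/
theorem smul_sub_mem_E0 (P : W.toAffine.Point) : s P - (sgn α σ : ℤ) • P ∈ E0 h hΔ0 := by
  obtain ⟨s', hs', he⟩ := exists_equivariant σ h h2 hσ h₁ h₂ h₃ h₄ h₆ s hs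
  have hc := h.map_c h2 σ hσ h₁ h₂ h₃ h₄ h₆
  have key : s' (h.equiv P) - h.equiv P ∈ nfE0 h.v_c_lt_one (h.c_ne_zero hΔ0) := by
    rw [mem_nfE0, map_sub, phi_map σ hσ hc h.v_c_lt_one (h.c_ne_zero hΔ0) s' hs', toMul_sub,
      toMul_ofMul]
    exact qmap_div_mem_unitCls σ hσ hc _
  change h.equiv (s P - (sgn α σ : ℤ) • P) ∈ nfE0 h.v_c_lt_one (h.c_ne_zero hΔ0)
  rw [map_sub, he, map_zsmul, ← smul_sub]
  exact AddSubgroup.zsmul_mem _ key _

end Curve

end Fermat.Agent.P2.TateLoc
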