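import Fermat.Agent.P2.Tate.Sign
import Fermat.Agent.LOC.TateArith

/-! # Local structure of `T_p E` at a multiplicative prime `q` (`q = p` allowed)

* `exists_line` : the line of `E[p^∞]`, for all `p` at once, and the sign character;
* `exists_tate_basis` : the corresponding basis of `T_p E`;
* `steinberg_relation` : `(ρ g - e(g) det ρ(g)) (ρ h - e(h)) = 0` on the decomposition group;
* `exists_inertia_unit` : for `p ∤ v_q(Δ)`, `q ≠ p`, or `p = 2` and any `q`, inertia contains an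
  element whose upper right entry is a unit.
-/

set_option autoImplicit false

namespace Fermat.Agent.P2.TateLoc

open WeierstrassCurve WeierstrassCurve.Affine Fermat.Agent.ECRed Fermat.Agent.LOC.TatePhi
open Fermat.Agent.LOC Fermat.Agent.LOC.TateHom
open scoped WeierstrassCurve.Affine Classical

local notation "Qb" => AlgebraicClosure ℚ
local notation "Γℚ" => (AlgebraicClosure ℚ ≃ₐ[ℚ] AlgebraicClosure ℚ)

/-- The action of `ε : ℤˣ`. -/
lemma unit_mul_self (ε : ℤˣ) : (ε : ℤ) * ε = 1 := by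
  rcases Int.units_eq_one_or ε with h | h <;> rw [h] <;> rfl

/-- **The line of the torsion at a multiplicative place**, with the sign character `signHom`. -/
theorem exists_line' (W : WeierstrassCurve ℤ) (hΔ0 : W.Δ ≠ 0) {q : ℕ} (hq : q.Prime)
    (hc4 : ¬ (q : ℤ) ∣ W.c₄) (hΔ : (q : ℤ) ∣ W.Δ) (A : ValuationSubring Qb)
    (hA : A.LiesOverPrime q) :
    ∃ (x₀ y₀ α β : Qb)
      (hF : NodeCentre A.valuation ((W.map (Int.castRingHom ℚ)).baseChange Qb) x₀ y₀ α β)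
      (L : AddSubgroup ((W.map (Int.castRingHom ℚ))⁄Qb).Point),
      (∀ p : ℕ, p.Prime → ∀ n : ℕ,
        Nat.card {x : ((W.map (Int.castRingHom ℚ))⁄Qb).Point // x ∈ L ∧ p ^ n • x = 0} = p ^ n) ∧
      (∀ (g : A.decompositionSubgroup ℚ), ∀ x ∈ L, (g : Γℚ) • x ∈ L) ∧
      (∀ (g : A.decompositionSubgroup ℚ) (x : ((W.map (Int.castRingHom ℚ))⁄Qb).Point),
        (g : Γℚ) • x - ((signHom hF g : ℤˣ) : ℤ) • x ∈ L) := by
  obtain ⟨h1, h2⟩ := mult_hyps (L := Qb) W hq hc4 hΔ A hA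
  obtain ⟨x₀, y₀, α, β, h⟩ := exists_nodeCentre_of_Δ (v := A.valuation)
    (W := (W.map (Int.castRingHom ℚ)).baseChange Qb) two_ne_zero three_ne_zero
    (intCoeff_baseChange_int W _) h1 h2
  refine ⟨x₀, y₀, α, β, h, E0 h (baseChange_Δ_ne_zero W hΔ0),
    fun p hp n => card_E0 h _ hp (Nat.cast_ne_zero.mpr hp.ne_zero) n, ?_, ?_⟩
  · intro g x hx
    exact smul_mem_E0 ((g : Γℚ) : Qb →+* Qb) h _ two_ne_zero (decomposition_valuation A g.2)
      (by rw [baseChange_int_a₁]; exact map_intCast (g : Γℚ) _)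
      (by rw [baseChange_int_a₂]; exact map_intCast (g : Γℚ) _)
      (by rw [baseChange_int_a₃]; exact map_intCast (g : Γℚ) _)
      (by rw [baseChange_int_a₄]; exact map_intCast (g : Γℚ) _)
      (by rw [baseChange_int_a₆]; exact map_intCast (g : Γℚ) _)
      (DistribSMul.toAddMonoidHom ((W.map (Int.castRingHom ℚ)).toAffine.baseChange Qb).Point
        (g : Γℚ)) (fun x y h => ⟨_, rfl⟩) hx
  · intro g x
    exact smul_sub_mem_E0 ((g : Γℚ) : Qb →+* Qb) h _ two_ne_zero (decomposition_valuation A g.2)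
      (by rw [baseChange_int_a₁]; exact map_intCast (g : Γℚ) _)
      (by rw [baseChange_int_a₂]; exact map_intCast (g : Γℚ) _)
      (by rw [baseChange_int_a₃]; exact map_intCast (g : Γℚ) _)
      (by rw [baseChange_int_a₄]; exact map_intCast (g : Γℚ) _)
      (by rw [baseChange_int_a₆]; exact map_intCast (g : Γℚ) _)
      (DistribSMul.toAddMonoidHom ((W.map (Int.castRingHom ℚ)).toAffine.baseChange Qb).Point
        (g : Γℚ)) (fun x y h => ⟨_, rfl⟩) x

/-- **The line of the torsion at a multiplicative place**, and the sign character. -/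
theorem exists_line (W : WeierstrassCurve ℤ) (hΔ0 : W.Δ ≠ 0) {q : ℕ} (hq : q.Prime)
    (hc4 : ¬ (q : ℤ) ∣ W.c₄) (hΔ : (q : ℤ) ∣ W.Δ) (A : ValuationSubring Qb)
    (hA : A.LiesOverPrime q) :
    ∃ (e : A.decompositionSubgroup ℚ →* ℤˣ)
      (L : AddSubgroup ((W.map (Int.castRingHom ℚ))⁄Qb).Point),
      (∀ g : A.decompositionSubgroup ℚ, (g : Γℚ) ∈ A.inertiaSubgroupIn ℚ → e g = 1) ∧
      (∀ (φ : Γℚ) (hφ : A.IsFrobeniusAt φ q),
        e ⟨φ, hφ.mem_decompositionSubgroup⟩ = splitSign W q) ∧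
      (∀ p : ℕ, p.Prime → ∀ n : ℕ,
        Nat.card {x : ((W.map (Int.castRingHom ℚ))⁄Qb).Point // x ∈ L ∧ p ^ n • x = 0} = p ^ n) ∧
      (∀ (g : A.decompositionSubgroup ℚ), ∀ x ∈ L, (g : Γℚ) • x ∈ L) ∧
      (∀ (g : A.decompositionSubgroup ℚ) (x : ((W.map (Int.castRingHom ℚ))⁄Qb).Point),
        (g : Γℚ) • x - ((e g : ℤˣ) : ℤ) • x ∈ L) := by
  obtain ⟨x₀, y₀, α, β, hF, L, h1, h2, h3⟩ := exists_line' W hΔ0 hq hc4 hΔ A hA
  exact ⟨signHom hF, L, fun g hg => signHom_inertia hF hg,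
    fun φ hφ => signHom_frobenius hF hq hA hφ, h1, h2, h3⟩

/-- **The local structure of `T_p E` at a multiplicative place** over any prime `q`, for all `p`
(including `p = q`), with the sign character `signHom`. -/
theorem exists_tate_basis' (W : WeierstrassCurve ℤ) (hΔ0 : W.Δ ≠ 0) {q : ℕ} (hq : q.Prime)
    (hc4 : ¬ (q : ℤ) ∣ W.c₄) (hΔ : (q : ℤ) ∣ W.Δ) (A : ValuationSubring Qb)
    (hA : A.LiesOverPrime q) :
    ∃ (x₀ y₀ α β : Qb)
      (hF : NodeCentre A.valuation ((W.map (Int.castRingHom ℚ)).baseChange Qb) x₀ y₀ α β),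
      ∀ (p : ℕ) [Fact p.Prime], ∃ b : Module.Basis (Fin 2) ℤ_[p] (EllTate.tate W hΔ0 p).V,
        ∀ g : A.decompositionSubgroup ℚ,
          (EllTate.tate W hΔ0 p).ρ g (b 0) = ((((signHom hF g : ℤˣ) : ℤ) : ℤ_[p]) *
            LinearMap.det ((EllTate.tate W hΔ0 p).ρ g)) • b 0 ∧
          ∃ y : ℤ_[p], (EllTate.tate W hΔ0 p).ρ g (b 1) =
            y • b 0 + (((signHom hF g : ℤˣ) : ℤ) : ℤ_[p]) • b 1 := by
  obtain ⟨x₀, y₀, α, β, hF, L, h3, h4, h5⟩ := exists_line' W hΔ0 hq hc4 hΔ A hA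
  refine ⟨x₀, y₀, α, β, hF, fun p hp => ?_⟩
  have hell := EllTate.isElliptic_of_Δ_ne_zero hΔ0
  have ht := EllTate.isTateType (W.map (Int.castRingHom ℚ)) p
  have hL : Tate.IsOrdLine p A L := Tate.IsOrdLine.mk_of_card hp.out (h3 p hp.out)
    (fun σ hσ n x hx _ => h4 ⟨σ, hσ⟩ x hx)
    (fun σ hσ n x _ => by
      have := h5 ⟨σ, mem_decomposition_of_inertia A hσ⟩ x
      rwa [signHom_inertia hF (σ := ⟨σ, mem_decomposition_of_inertia A hσ⟩) hσ, Units.val_one,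
        one_smul] at this)
  obtain ⟨b, hb⟩ := Tate.exists_basis_line ht hL
  refine ⟨b, fun g => ?_⟩
  have hdec : ∀ v ∈ Tate.lineIn ht L, (Tate.tateRep ht).ρ g v ∈ Tate.lineIn ht L :=
    fun v hv n => h4 g _ (hv n)
  have hquot : ∀ v : (Tate.tateRep ht).V, (Tate.tateRep ht).ρ g v -
      ((((signHom hF g : ℤˣ) : ℤ) : ℤ_[p])) • v ∈ Tate.lineIn ht L := by
    intro v
    rw [Tate.mem_lineIn]
    intro n
    rw [Int.cast_smul_eq_zsmul, map_sub, map_zsmul]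
    exact h5 g _
  have h0 : b 0 ∈ Tate.lineIn ht L := by
    rw [hb]; exact Submodule.mem_span_singleton_self _
  have h6 := hdec _ h0
  rw [hb] at h6
  obtain ⟨x, hx⟩ := Submodule.mem_span_singleton.mp h6
  have hz := hquot (b 1)
  rw [hb] at hz
  have hd := Tate.det_eq_of_line b ((Tate.tateRep ht).ρ g) hx.symm hz
  obtain ⟨y, hy⟩ := Submodule.mem_span_singleton.mp hz
  have hε : ((((signHom hF g : ℤˣ) : ℤ) : ℤ_[p])) * (((signHom hF g : ℤˣ) : ℤ) : ℤ_[p]) = 1 := by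
    exact_mod_cast congrArg (fun z : ℤ => (z : ℤ_[p])) (unit_mul_self (signHom hF g))
  refine ⟨?_, y, ?_⟩
  · change (Tate.tateRep ht).ρ g (b 0) =
      ((((signHom hF g : ℤˣ) : ℤ) : ℤ_[p]) * LinearMap.det ((Tate.tateRep ht).ρ g)) • b 0
    rw [hd, ← hx]
    congr 1
    linear_combination (-x) * hε
  · have key : (Tate.tateRep ht).ρ g (b 1) =
        y • b 0 + (((signHom hF g : ℤˣ) : ℤ) : ℤ_[p]) • b 1 := by
      rw [hy, sub_add_cancel]
    exact key

/-- **The local structure of `T_p E` at a multiplicative place** over any prime `q`, for all `p`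
(including `p = q`), with a sign character independent of `p`. -/
theorem exists_tate_basis (W : WeierstrassCurve ℤ) (hΔ0 : W.Δ ≠ 0) {q : ℕ} (hq : q.Prime)
    (hc4 : ¬ (q : ℤ) ∣ W.c₄) (hΔ : (q : ℤ) ∣ W.Δ) (A : ValuationSubring Qb)
    (hA : A.LiesOverPrime q) :
    ∃ e : A.decompositionSubgroup ℚ →* ℤˣ,
      (∀ g : A.decompositionSubgroup ℚ, (g : Γℚ) ∈ A.inertiaSubgroupIn ℚ → e g = 1) ∧
      (∀ (φ : Γℚ) (hφ : A.IsFrobeniusAt φ q),
        e ⟨φ, hφ.mem_decompositionSubgroup⟩ = splitSign W q) ∧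
      ∀ (p : ℕ) [Fact p.Prime], ∃ b : Module.Basis (Fin 2) ℤ_[p] (EllTate.tate W hΔ0 p).V,
        ∀ g : A.decompositionSubgroup ℚ,
          (EllTate.tate W hΔ0 p).ρ g (b 0) =
            ((((e g : ℤˣ) : ℤ) : ℤ_[p]) * LinearMap.det ((EllTate.tate W hΔ0 p).ρ g)) • b 0 ∧
          ∃ y : ℤ_[p], (EllTate.tate W hΔ0 p).ρ g (b 1) =
            y • b 0 + (((e g : ℤˣ) : ℤ) : ℤ_[p]) • b 1 := by
  obtain ⟨x₀, y₀, α, β, hF, h⟩ := exists_tate_basis' W hΔ0 hq hc4 hΔ A hA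
  exact ⟨signHom hF, fun g hg => signHom_inertia hF hg,
    fun φ hφ => signHom_frobenius hF hq hA hφ, h⟩

/-- **The Steinberg relation** on the decomposition group at a multiplicative place. -/
theorem steinberg_relation (W : WeierstrassCurve ℤ) (hΔ0 : W.Δ ≠ 0) {q : ℕ} (hq : q.Prime)
    (hc4 : ¬ (q : ℤ) ∣ W.c₄) (hΔ : (q : ℤ) ∣ W.Δ) (A : ValuationSubring Qb)
    (hA : A.LiesOverPrime q) :
    ∃ e : A.decompositionSubgroup ℚ →* ℤˣ,
      (∀ g : A.decompositionSubgroup ℚ, (g : Γℚ) ∈ A.inertiaSubgroupIn ℚ → e g = 1) ∧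
      (∀ (φ : Γℚ) (hφ : A.IsFrobeniusAt φ q),
        e ⟨φ, hφ.mem_decompositionSubgroup⟩ = splitSign W q) ∧
      ∀ (p : ℕ) [Fact p.Prime] (g h : A.decompositionSubgroup ℚ),
        ((EllTate.tate W hΔ0 p).ρ g -
          ((((e g : ℤˣ) : ℤ) : ℤ_[p]) * LinearMap.det ((EllTate.tate W hΔ0 p).ρ g)) • 1) *
        ((EllTate.tate W hΔ0 p).ρ h - (((e h : ℤˣ) : ℤ) : ℤ_[p]) • 1) = 0 := by
  obtain ⟨e, h1, h2, h3⟩ := exists_tate_basis W hΔ0 hq hc4 hΔ A hA
  refine ⟨e, h1, h2, fun p hp g h => ?_⟩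
  obtain ⟨b, hb⟩ := h3 p
  obtain ⟨hg0, -⟩ := hb g
  obtain ⟨hh0, y, hh1⟩ := hb h
  refine b.ext fun i => ?_
  fin_cases i
  · change ((EllTate.tate W hΔ0 p).ρ g - _) (((EllTate.tate W hΔ0 p).ρ h - _) (b 0)) = 0
    rw [LinearMap.sub_apply ((EllTate.tate W hΔ0 p).ρ h), hh0, LinearMap.smul_apply,
      Module.End.one_apply, ← sub_smul, map_smul, LinearMap.sub_apply, hg0,
      LinearMap.smul_apply, Module.End.one_apply, sub_self, smul_zero]
  · change ((EllTate.tate W hΔ0 p).ρ g - _) (((EllTate.tate W hΔ0 p).ρ h - _) (b 1)) = 0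
    rw [LinearMap.sub_apply ((EllTate.tate W hΔ0 p).ρ h), hh1, LinearMap.smul_apply,
      Module.End.one_apply, add_sub_cancel_right, map_smul, LinearMap.sub_apply, hg0,
      LinearMap.smul_apply, Module.End.one_apply, sub_self, smul_zero]

end Fermat.Agent.P2.TateLoc
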