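import Fermat.Agent.P2.Tate.E0
import Fermat.Agent.LOC.TateRam

/-! # The sign of the decomposition group at a multiplicative place

`signHom : A.decompositionSubgroup ℚ →* ℤˣ`, trivial on inertia, with value `splitSign W q` at
Frobenius elements (`+1` in the split case, `-1` otherwise).
-/

set_option autoImplicit false

namespace Fermat.Agent.P2.TateLoc

open WeierstrassCurve WeierstrassCurve.Affine Fermat.Agent.ECRed Fermat.Agent.LOC.TatePhi
open Fermat.Agent.LOC Fermat.Agent.LOC.TateHom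
open scoped WeierstrassCurve.Affine Classical

/-- The reduction modulo `q` has a node with rational tangents. -/
def IsSplit (W : WeierstrassCurve ℤ) (q : ℕ) : Prop :=
  ∃ x y t : ℤ, (q : ℤ) ∣ 2 * y + W.a₁ * x + W.a₃ ∧
    (q : ℤ) ∣ 3 * x ^ 2 + 2 * W.a₂ * x + W.a₄ - W.a₁ * y ∧
    (q : ℤ) ∣ y ^ 2 + W.a₁ * x * y + W.a₃ * y - (x ^ 3 + W.a₂ * x ^ 2 + W.a₄ * x + W.a₆) ∧
    (q : ℤ) ∣ t ^ 2 + W.a₁ * t - (W.a₂ + 3 * x)

/-- The sign attached to a multiplicative prime. -/
noncomputable def splitSign (W : WeierstrassCurve ℤ) (q : ℕ) : ℤˣ :=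
  if IsSplit W q then 1 else -1

local notation "Qb" => AlgebraicClosure ℚ

section

variable {A : ValuationSubring (AlgebraicClosure ℚ)} {q : ℕ}

/-- Frobenius is `x ↦ x ^ q` on the residue field: valuation form. -/
lemma frob_sub_pow {σ : Qb ≃ₐ[ℚ] Qb} (hσ : A.IsFrobeniusAt σ q) {x : Qb}
    (hx : A.valuation x ≤ 1) : A.valuation (σ x - x ^ q) < 1 := by
  obtain ⟨hσ, hq⟩ := hσ
  rw [A.valuation_le_one_iff] at hx
  have h1 : ((⟨σ, hσ⟩ : A.decompositionSubgroup ℚ) • (⟨x, hx⟩ : A)) - ⟨x, hx⟩ ^ q ∈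
      IsLocalRing.maximalIdeal A := by
    rw [← IsLocalRing.residue_eq_zero_iff, map_sub, map_pow, sub_eq_zero, ← hq]
    rfl
  rw [A.valuation_lt_one_iff] at h1
  exact h1

lemma exists_int_near (hq : q.Prime) (hA : A.LiesOverPrime q) {σ : Qb ≃ₐ[ℚ] Qb}
    (hσ : A.IsFrobeniusAt σ q) {x : Qb} (hx : A.valuation x ≤ 1) (h : σ x = x) :
    ∃ n : ℤ, A.valuation (x - n) < 1 := by
  have : Fact q.Prime := ⟨hq⟩
  have hx' := (A.valuation_le_one_iff x).mp hx
  have hq0 : (q : IsLocalRing.ResidueField A) = 0 := by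
    rw [← map_natCast (IsLocalRing.residue A), IsLocalRing.residue_eq_zero_iff,
      A.valuation_lt_one_iff]
    exact A.mem_nonunits_iff.mp hA
  have hchar : CharP (IsLocalRing.ResidueField A) q :=
    (CharP.charP_iff_prime_eq_zero hq).mpr hq0
  have h1 : IsLocalRing.residue A ⟨x, hx'⟩ ^ q = IsLocalRing.residue A ⟨x, hx'⟩ := by
    rw [← map_pow, eq_comm, ← sub_eq_zero, ← map_sub, IsLocalRing.residue_eq_zero_iff,
      A.valuation_lt_one_iff]
    have := frob_sub_pow hσ hx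
    rw [h] at this
    exact this
  rw [← Subfield.mem_bot_iff_pow_eq_self, mem_bot_iff_intCast q] at h1
  obtain ⟨n, hn⟩ := h1
  refine ⟨n, ?_⟩
  rw [← map_intCast (IsLocalRing.residue A), eq_comm, ← sub_eq_zero, ← map_sub,
    IsLocalRing.residue_eq_zero_iff, A.valuation_lt_one_iff] at hn
  exact hn

lemma valuation_int_lt_one_iff (hq : q.Prime) (hA : A.LiesOverPrime q) {n : ℤ} :
    A.valuation (n : Qb) < 1 ↔ (q : ℤ) ∣ n := by
  constructor
  · intro h
    by_contra hn
    have := valuation_int_eq_one A hA (isCoprime_of_not_dvd hq hn)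
    rw [this] at h
    exact lt_irrefl _ h
  · exact fun h => valuation_int_lt_one A hA h

variable {W : WeierstrassCurve ℤ} {x₀ y₀ α β : Qb}

/-- Integral points reducing to the node are near the centre. -/
lemma near_centre (h : NodeCentre A.valuation ((W.map (Int.castRingHom ℚ)).baseChange Qb)
    x₀ y₀ α β) (hq : q.Prime) (hA : A.LiesOverPrime q) {x y : ℤ}
    (e1 : (q : ℤ) ∣ 2 * y + W.a₁ * x + W.a₃)
    (e2 : (q : ℤ) ∣ 3 * x ^ 2 + 2 * W.a₂ * x + W.a₄ - W.a₁ * y)
    (e3 : (q : ℤ) ∣ y ^ 2 + W.a₁ * x * y + W.a₃ * y - (x ^ 3 + W.a₂ * x ^ 2 + W.a₄ * x + W.a₆)) :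
    A.valuation ((x : Qb) - x₀) < 1 := by
  rw [← valuation_int_lt_one_iff hq hA] at e1 e2 e3
  push_cast at e1 e2 e3
  have hY := h.hY
  have hX := h.hX
  have hF := h.hF
  have ix := h.int_x
  have iy := h.int_y
  rw [baseChange_int_a₁, baseChange_int_a₃] at hY
  rw [baseChange_int_a₁, baseChange_int_a₂, baseChange_int_a₄] at hX
  rw [baseChange_int_a₁, baseChange_int_a₂, baseChange_int_a₃, baseChange_int_a₄,
    baseChange_int_a₆] at hF
  set a₁ : Qb := (W.a₁ : Qb)
  set a₂ : Qb := (W.a₂ : Qb)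
  set a₃ : Qb := (W.a₃ : Qb)
  set a₄ : Qb := (W.a₄ : Qb)
  set a₆ : Qb := (W.a₆ : Qb)
  have ux : A.valuation ((x : Qb) - x₀) ≤ 1 :=
    (A.valuation.map_sub _ _).trans (max_le (v_int_le_one x) ix)
  have uy : A.valuation ((y : Qb) - y₀) ≤ 1 :=
    (A.valuation.map_sub _ _).trans (max_le (v_int_le_one y) iy)
  set f := y₀ ^ 2 + a₁ * x₀ * y₀ + a₃ * y₀ - (x₀ ^ 3 + a₂ * x₀ ^ 2 + a₄ * x₀ + a₆) with hf
  set E1 := 2 * (y : Qb) + a₁ * x + a₃ with hE1
  set E2 := 3 * (x : Qb) ^ 2 + 2 * a₂ * x + a₄ - a₁ * y with hE2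
  set E3 := (y : Qb) ^ 2 + a₁ * x * y + a₃ * y - (x ^ 3 + a₂ * x ^ 2 + a₄ * x + a₆) with hE3
  have key : ((x : Qb) - x₀) ^ 3 =
      2 * (E3 - f) - ((y : Qb) - y₀) * E1 + ((x : Qb) - x₀) * E2 := by
    rw [hE1, hE2, hE3, hf]
    linear_combination ((x : Qb) - x₀) * hX - ((y : Qb) - y₀) * hY
  have hlt : A.valuation (((x : Qb) - x₀) ^ 3) < 1 := by
    rw [key]
    exact A.valuation.map_add_lt (A.valuation.map_sub_lt
      (v_imul_lt v_two_le_one (A.valuation.map_sub_lt e3 hF)) (v_imul_lt uy e1))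
      (v_imul_lt ux e2)
  by_contra hle
  push Not at hle
  rw [map_pow] at hlt
  exact absurd (one_le_pow₀ hle (n := 3)) (not_le.mpr hlt)

variable (hF : NodeCentre A.valuation ((W.map (Int.castRingHom ℚ)).baseChange Qb) x₀ y₀ α β)

include hF in
/-- The decomposition group permutes the tangents. -/
lemma tangents {σ : Qb ≃ₐ[ℚ] Qb} (hσ : σ ∈ A.decompositionSubgroup ℚ) :
    σ x₀ = x₀ ∧ σ y₀ = y₀ ∧ ((σ α = α ∧ σ β = β) ∨ (σ α = β ∧ σ β = α)) := by
  refine hF.unique two_ne_zero (hF.map (σ : Qb →+* Qb) (decomposition_valuation A hσ) ?_ ?_ ?_ ?_ ?_)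
  · rw [baseChange_int_a₁]; exact map_intCast σ _
  · rw [baseChange_int_a₂]; exact map_intCast σ _
  · rw [baseChange_int_a₃]; exact map_intCast σ _
  · rw [baseChange_int_a₄]; exact map_intCast σ _
  · rw [baseChange_int_a₆]; exact map_intCast σ _

/-- **The sign character of the decomposition group.** -/
noncomputable def signHom : A.decompositionSubgroup ℚ →* ℤˣ where
  toFun σ := sgn α ((σ : Qb ≃ₐ[ℚ] Qb) : Qb →+* Qb)
  map_one' := by
    rw [sgn, if_pos]
    rfl
  map_mul' σ τ := by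
    have hne : α ≠ β := sub_ne_zero.mp hF.sub_ne_zero
    obtain ⟨-, -, h1⟩ := tangents hF σ.2
    obtain ⟨-, -, h2⟩ := tangents hF τ.2
    have e : ((σ * τ : A.decompositionSubgroup ℚ) : Qb ≃ₐ[ℚ] Qb) α =
      (σ : Qb ≃ₐ[ℚ] Qb) ((τ : Qb ≃ₐ[ℚ] Qb) α) := rfl
    change (if ((σ * τ : A.decompositionSubgroup ℚ) : Qb ≃ₐ[ℚ] Qb) α = α then (1 : ℤˣ) else -1) =
      (if (σ : Qb ≃ₐ[ℚ] Qb) α = α then (1 : ℤˣ) else -1) *
      (if (τ : Qb ≃ₐ[ℚ] Qb) α = α then (1 : ℤˣ) else -1)
    rw [e]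
    rcases h1 with ⟨h1, h1'⟩ | ⟨h1, h1'⟩ <;> rcases h2 with ⟨h2, h2'⟩ | ⟨h2, h2'⟩ <;>
      simp [h1, h1', h2, hne.symm]

lemma signHom_apply (σ : A.decompositionSubgroup ℚ) :
    signHom hF σ = sgn α ((σ : Qb ≃ₐ[ℚ] Qb) : Qb →+* Qb) := rfl

lemma signHom_eq_one_iff (σ : A.decompositionSubgroup ℚ) :
    signHom hF σ = 1 ↔ (σ : Qb ≃ₐ[ℚ] Qb) α = α := by
  change (if (σ : Qb ≃ₐ[ℚ] Qb) α = α then (1 : ℤˣ) else -1) = 1 ↔ _
  split_ifs with h
  · simp [h]
  · simp only [h, iff_false]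
    decide

lemma signHom_of_near {σ : A.decompositionSubgroup ℚ}
    (h : A.valuation ((σ : Qb ≃ₐ[ℚ] Qb) α - α) < 1) : signHom hF σ = 1 := by
  rw [signHom_eq_one_iff]
  obtain ⟨-, -, ⟨h1, -⟩ | ⟨h1, -⟩⟩ := tangents hF σ.2
  · exact h1
  · rw [h1, Valuation.map_sub_swap, hF.sub] at h
    exact absurd h (lt_irrefl _)

/-- The sign is trivial on inertia. -/
theorem signHom_inertia {σ : A.decompositionSubgroup ℚ}
    (hσ : (σ : Qb ≃ₐ[ℚ] Qb) ∈ A.inertiaSubgroupIn ℚ) : signHom hF σ = 1 :=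
  signHom_of_near hF (inertia_sub A hσ hF.int_α)

/-- **The sign at Frobenius.** -/
theorem signHom_frobenius (hq : q.Prime) (hA : A.LiesOverPrime q) {σ : Qb ≃ₐ[ℚ] Qb}
    (hσ : A.IsFrobeniusAt σ q) :
    signHom hF ⟨σ, hσ.mem_decompositionSubgroup⟩ = splitSign W q := by
  have hprod := hF.prod
  have hsum := hF.sum
  have hX := hF.hX
  have hY := hF.hY
  have hFF := hF.hF
  rw [baseChange_int_a₂] at hprod
  rw [baseChange_int_a₁] at hsum
  rw [baseChange_int_a₁, baseChange_int_a₃] at hY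
  rw [baseChange_int_a₁, baseChange_int_a₂, baseChange_int_a₄] at hX
  rw [baseChange_int_a₁, baseChange_int_a₂, baseChange_int_a₃, baseChange_int_a₄,
    baseChange_int_a₆] at hFF
  have hdec := hσ.mem_decompositionSubgroup
  -- an integral element near a fixed one has near image
  have hnear : ∀ {z : Qb} {n : ℤ}, A.valuation (z - n) < 1 → A.valuation (σ z - z) < 1 := by
    intro z n h
    have h1 : A.valuation (σ z - n) < 1 := by
      have := decomposition_valuation A hdec (z - n)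
      rw [map_sub, map_intCast] at this
      rw [this]; exact h
    have : σ z - z = (σ z - n) - (z - n) := by ring
    rw [this]
    exact A.valuation.map_sub_lt h1 h
  by_cases hs : IsSplit W q
  · rw [splitSign, if_pos hs]
    obtain ⟨x, y, t, e1, e2, e3, e4⟩ := hs
    have hx := near_centre hF hq hA e1 e2 e3
    rw [← valuation_int_lt_one_iff hq hA] at e4
    push_cast at e4
    have h4 : A.valuation (((t : Qb) - α) * (t - β)) < 1 := by
      have : ((t : Qb) - α) * (t - β) =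
          ((t : Qb) ^ 2 + W.a₁ * t - (W.a₂ + 3 * x)) + 3 * (x - x₀) := by
        linear_combination (-(t : Qb)) * hsum + hprod
      rw [this]
      exact A.valuation.map_add_lt e4 (v_imul_lt v_three_le_one hx)
    have hcase : A.valuation ((t : Qb) - α) < 1 ∨ A.valuation ((t : Qb) - β) < 1 := by
      by_contra hcon
      push Not at hcon
      rw [map_mul] at h4
      exact absurd h4 (not_lt.mpr (one_le_mul hcon.1 hcon.2))
    rcases hcase with h5 | h5
    · exact signHom_of_near hF (hnear (by rwa [Valuation.map_sub_swap]))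
    · have h6 := hnear (z := β) (n := t) (by rwa [Valuation.map_sub_swap])
      rw [signHom_eq_one_iff]
      obtain ⟨-, -, ⟨h7, -⟩ | ⟨-, h7⟩⟩ := tangents hF hdec
      · exact h7
      · rw [h7, hF.sub] at h6
        exact absurd h6 (lt_irrefl _)
  · rw [splitSign, if_neg hs]
    rcases Int.units_eq_one_or (signHom hF ⟨σ, hdec⟩) with h1 | h1
    · exfalso
      apply hs
      rw [signHom_eq_one_iff] at h1
      obtain ⟨hx0, hy0, -⟩ := tangents hF hdec
      obtain ⟨x, hx⟩ := exists_int_near hq hA hσ hF.int_x hx0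
      obtain ⟨y, hy⟩ := exists_int_near hq hA hσ hF.int_y hy0
      obtain ⟨t, ht⟩ := exists_int_near hq hA hσ hF.int_α h1
      have ix := hF.int_x
      have iy := hF.int_y
      have iα := hF.int_α
      have vx : A.valuation (x : Qb) ≤ 1 := v_int_le_one x
      have vy : A.valuation (y : Qb) ≤ 1 := v_int_le_one y
      have vt : A.valuation (t : Qb) ≤ 1 := v_int_le_one t
      have va1 : A.valuation (W.a₁ : Qb) ≤ 1 := v_int_le_one W.a₁
      have va2 : A.valuation (W.a₂ : Qb) ≤ 1 := v_int_le_one W.a₂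
      have va3 : A.valuation (W.a₃ : Qb) ≤ 1 := v_int_le_one W.a₃
      have va4 : A.valuation (W.a₄ : Qb) ≤ 1 := v_int_le_one W.a₄
      have va6 : A.valuation (W.a₆ : Qb) ≤ 1 := v_int_le_one W.a₆
      have v3 : A.valuation (3 : Qb) ≤ 1 := v_three_le_one
      have v2 : A.valuation (2 : Qb) ≤ 1 := v_two_le_one
      refine ⟨x, y, t, ?_, ?_, ?_, ?_⟩
      · rw [← valuation_int_lt_one_iff hq hA]
        push_cast
        have : 2 * (y : Qb) + W.a₁ * x + W.a₃ = -(2 * (y₀ - y) + W.a₁ * (x₀ - x)) := by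
          linear_combination hY
        rw [this, Valuation.map_neg]
        exact A.valuation.map_add_lt (v_imul_lt v2 hy) (v_imul_lt va1 hx)
      · rw [← valuation_int_lt_one_iff hq hA]
        push_cast
        have : 3 * (x : Qb) ^ 2 + 2 * W.a₂ * x + W.a₄ - W.a₁ * y =
            W.a₁ * (y₀ - y) - (3 * (x₀ + x) + 2 * W.a₂) * (x₀ - x) := by
          linear_combination hX
        rw [this]
        refine A.valuation.map_sub_lt (v_imul_lt va1 hy) (v_imul_lt ?_ hx)
        exact A.valuation.map_add_le (v_imul_le v3 (A.valuation.map_add_le ix vx))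
          (v_imul_le v2 va2)
      · rw [← valuation_int_lt_one_iff hq hA]
        push_cast
        have : (y : Qb) ^ 2 + W.a₁ * x * y + W.a₃ * y -
            (x ^ 3 + W.a₂ * x ^ 2 + W.a₄ * x + W.a₆) =
            (y₀ ^ 2 + W.a₁ * x₀ * y₀ + W.a₃ * y₀ -
              (x₀ ^ 3 + W.a₂ * x₀ ^ 2 + W.a₄ * x₀ + W.a₆)) -
            (y₀ + y + W.a₁ * x₀ + W.a₃) * (y₀ - y) -
            (W.a₁ * y - (x₀ ^ 2 + x₀ * x + x ^ 2) - W.a₂ * (x₀ + x) - W.a₄) * (x₀ - x) := by
          ring
        rw [this]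
        refine A.valuation.map_sub_lt (A.valuation.map_sub_lt hFF (v_imul_lt ?_ hy))
          (v_imul_lt ?_ hx)
        · exact A.valuation.map_add_le (A.valuation.map_add_le (A.valuation.map_add_le iy vy)
            (v_imul_le va1 ix)) va3
        · refine (A.valuation.map_sub _ _).trans (max_le ?_ va4)
          refine (A.valuation.map_sub _ _).trans (max_le ?_
            (v_imul_le va2 (A.valuation.map_add_le ix vx)))
          refine (A.valuation.map_sub _ _).trans (max_le (v_imul_le va1 vy) ?_)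
          exact A.valuation.map_add_le (A.valuation.map_add_le
            (by rw [map_pow]; exact pow_le_one₀ zero_le ix) (v_imul_le ix vx))
            (by rw [map_pow]; exact pow_le_one₀ zero_le vx)
      · rw [← valuation_int_lt_one_iff hq hA]
        push_cast
        have : (t : Qb) ^ 2 + W.a₁ * t - (W.a₂ + 3 * x) =
            -(α + t + W.a₁) * (α - t) + 3 * (x₀ - x) := by
          linear_combination α * hsum - hprod
        rw [this]
        refine A.valuation.map_add_lt (v_imul_lt ?_ ht) (v_imul_lt v3 hx)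
        rw [Valuation.map_neg]
        exact A.valuation.map_add_le (A.valuation.map_add_le iα vt) va1
    · exact h1

end

end Fermat.Agent.P2.TateLoc
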