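import Fermat.Agent.P2.Tate.Loc

/-! # Ramification of `E[2]` when `v_q(Δ)` is odd

The square root of the discriminant lies in `ℚ(E[2])`; hence if `v_q(Δ)` is odd (any prime `q`,
`q = 2` allowed, any type of reduction) inertia at `q` acts non trivially on `E[2]`.
Consequence: for a multiplicative prime `q`, in the basis of `exists_tate_basis` for `p = 2`,
inertia contains an element with unit upper right entry.
-/

set_option autoImplicit false

namespace Fermat.Agent.P2.TateLoc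

open WeierstrassCurve WeierstrassCurve.Affine Fermat.Agent.ECRed Fermat.Agent.LOC.TatePhi
open Fermat.Agent.LOC Fermat.Agent.LOC.TateHom
open scoped WeierstrassCurve.Affine Classical

local notation "Qb" => AlgebraicClosure ℚ
local notation "Γℚ" => (AlgebraicClosure ℚ ≃ₐ[ℚ] AlgebraicClosure ℚ)

section field

variable {K : Type*} [Field K] (W : WeierstrassCurve K)

/-- The roots of the `2`-division polynomial. -/
theorem exists_two_roots [IsAlgClosed K] (h2 : (2 : K) ≠ 0) : ∃ e₁ e₂ e₃ : K,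
    (∀ x, 4 * x ^ 3 + W.b₂ * x ^ 2 + 2 * W.b₄ * x + W.b₆ =
      4 * (x - e₁) * (x - e₂) * (x - e₃)) ∧
    W.Δ = (4 * (e₁ - e₂) * (e₁ - e₃) * (e₂ - e₃)) ^ 2 := by
  have h4 : (4 : K) ≠ 0 := by
    rw [show (4 : K) = 2 * 2 by norm_num]; exact mul_ne_zero h2 h2
  have ha : W.twoTorsionPolynomial.a ≠ 0 := h4
  obtain ⟨e₁, e₂, e₃, h3⟩ := (Cubic.splits_iff_roots_eq_three (φ := RingHom.id K) ha).mp
    (IsAlgClosed.splits _)
  refine ⟨e₁, e₂, e₃, fun x => ?_, ?_⟩
  · have := congrArg (Polynomial.eval x) (Cubic.eq_prod_three_roots (φ := RingHom.id K) ha h3)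
    simpa [Cubic.toPoly, Cubic.map, twoTorsionPolynomial] using this
  · have := Cubic.discr_eq_prod_three_roots (φ := RingHom.id K) ha h3
    rw [RingHom.id_apply, twoTorsionPolynomial_discr, RingHom.id_apply] at this
    have h16 : (16 : K) ≠ 0 := by
      rw [show (16 : K) = 4 * 4 by norm_num]; exact mul_ne_zero h4 h4
    apply mul_left_cancel₀ h16
    rw [this]
    simp only [twoTorsionPolynomial]
    ring

/-- The `2`-torsion point attached to a root. -/
theorem exists_two_point [DecidableEq K] (h2 : (2 : K) ≠ 0) (hΔ : W.Δ ≠ 0) {e : K}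
    (he : 4 * e ^ 3 + W.b₂ * e ^ 2 + 2 * W.b₄ * e + W.b₆ = 0) :
    ∃ (y : K) (h : W.toAffine.Nonsingular e y), 2 • (Point.some e y h) = 0 := by
  have hell : W.IsElliptic := ⟨isUnit_iff_ne_zero.mpr hΔ⟩
  refine ⟨-(W.a₁ * e + W.a₃) / 2, ?_, ?_⟩
  · rw [← equation_iff_nonsingular, equation_iff]
    rw [b₂, b₄, b₆] at he
    change (-(W.a₁ * e + W.a₃) / 2) ^ 2 + W.a₁ * e * (-(W.a₁ * e + W.a₃) / 2) +
      W.a₃ * (-(W.a₁ * e + W.a₃) / 2) = e ^ 3 + W.a₂ * e ^ 2 + W.a₄ * e + W.a₆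
    field_simp
    linear_combination (-(1 : K)) * he
  · rw [two_smul, add_eq_zero_iff_eq_neg, Point.neg_some, Point.some.injEq]
    refine ⟨rfl, ?_⟩
    rw [negY]
    change -(W.a₁ * e + W.a₃) / 2 = -(-(W.a₁ * e + W.a₃) / 2) - W.a₁ * e - W.a₃
    field_simp
    ring

end field

/-- **Inertia acts non trivially on `E[2]` if `v_q(Δ)` is odd.** -/
theorem exists_inertia_two_ne (W : WeierstrassCurve ℤ) (hΔ0 : W.Δ ≠ 0) {q : ℕ} (hq : q.Prime)
    (hodd : ¬ 2 ∣ padicValInt q W.Δ) (A : ValuationSubring Qb) (hA : A.LiesOverPrime q) :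
    ∃ σ ∈ A.inertiaSubgroupIn ℚ, ∃ P : ((W.map (Int.castRingHom ℚ))⁄Qb).Point,
      2 • P = 0 ∧ σ • P ≠ P := by
  by_contra hcon
  push Not at hcon
  apply hodd
  set E := (W.map (Int.castRingHom ℚ)).baseChange Qb with hE
  have hΔE : E.Δ ≠ 0 := baseChange_Δ_ne_zero W hΔ0
  obtain ⟨e₁, e₂, e₃, hroots, hD⟩ := exists_two_roots E two_ne_zero
  have hfix : ∀ e : Qb, (4 * e ^ 3 + E.b₂ * e ^ 2 + 2 * E.b₄ * e + E.b₆ = 0) →
      ∀ σ ∈ A.inertiaSubgroupIn ℚ, σ e = e := by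
    intro e he σ hσ
    obtain ⟨y, h, hP⟩ := exists_two_point E two_ne_zero hΔE he
    have h1 := hcon σ hσ (Point.some e y h) hP
    rw [Point.algEquiv_smul_def, Point.map_some, Point.some.injEq] at h1
    exact h1.1
  have hD' : ∀ σ ∈ A.inertiaSubgroupIn ℚ, σ (4 * (e₁ - e₂) * (e₁ - e₃) * (e₂ - e₃)) =
      4 * (e₁ - e₂) * (e₁ - e₃) * (e₂ - e₃) := by
    intro σ hσ
    have h1 := hfix e₁ (by rw [hroots]; ring) σ hσ
    have h2 := hfix e₂ (by rw [hroots]; ring) σ hσ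
    have h3 := hfix e₃ (by rw [hroots]; ring) σ hσ
    simp only [map_mul, map_sub, map_ofNat, h1, h2, h3]
  set D := 4 * (e₁ - e₂) * (e₁ - e₃) * (e₂ - e₃) with hDdef
  have hD0 : D ≠ 0 := by
    intro h
    rw [h] at hD
    exact hΔE (by rw [hD]; ring)
  have hvΔ : A.valuation D ^ 2 = A.valuation (q : Qb) ^ padicValInt q W.Δ := by
    rw [← map_pow, ← hD, hE, baseChange_int_Δ, valuation_int_eq_pow A hq hA hΔ0]
  have hvq : A.valuation (q : Qb) < 1 := A.mem_nonunits_iff.mp hA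
  have hvD : A.valuation D ≤ 1 := by
    by_contra hlt
    push Not at hlt
    have h1 : 1 < A.valuation D ^ 2 := one_lt_pow₀ hlt two_ne_zero
    rw [hvΔ] at h1
    exact absurd h1 (not_lt.mpr (pow_le_one₀ zero_le hvq.le))
  obtain ⟨k, hk⟩ := exists_valuation_eq_pow A hq hA hD0 hD' hvD
  rw [hk, ← pow_mul] at hvΔ
  have hvq0 : A.valuation (q : Qb) ≠ 0 :=
    (Valuation.ne_zero_iff _).mpr (Nat.cast_ne_zero.mpr hq.ne_zero)
  exact ⟨k, by rw [← pow_injective_of_lt_one hvq0 hvq hvΔ, mul_comm]⟩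

/-- In the `2`-adic Tate module, an element acting non trivially on `E[2]` and unipotently up to
the determinant has a unit upper right entry. -/
theorem isUnit_of_ne (W : WeierstrassCurve ℤ) (hΔ0 : W.Δ ≠ 0)
    (b : Module.Basis (Fin 2) ℤ_[2] (EllTate.tate W hΔ0 2).V) {σ : Γℚ} {x y : ℤ_[2]}
    (hx : IsUnit x)
    (h0 : (EllTate.tate W hΔ0 2).ρ σ (b 0) = x • b 0)
    (h1 : (EllTate.tate W hΔ0 2).ρ σ (b 1) = y • b 0 + b 1)
    {P : ((W.map (Int.castRingHom ℚ))⁄Qb).Point} (hP : 2 • P = 0) (hne : σ • P ≠ P) :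
    IsUnit y := by
  have hell := EllTate.isElliptic_of_Δ_ne_zero hΔ0
  by_contra hy
  have hmem : ∀ z : ℤ_[2], ¬ IsUnit z → ∃ z', z = 2 * z' := by
    intro z hz
    have h2 : z ∈ IsLocalRing.maximalIdeal ℤ_[2] := hz
    rw [PadicInt.maximalIdeal_eq_span_p, Ideal.mem_span_singleton'] at h2
    obtain ⟨z', hz'⟩ := h2
    exact ⟨z', by rw [← hz']; push_cast; ring⟩
  obtain ⟨y', rfl⟩ := hmem y hy
  obtain ⟨x', hx'⟩ : ∃ x', x - 1 = 2 * x' := by
    apply hmem
    intro h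
    -- both `x` and `x - 1` are units: impossible modulo 2
    have e1 : PadicInt.toZMod (p := 2) x = 1 := by
      have := hx.map (PadicInt.toZMod (p := 2))
      generalize PadicInt.toZMod (p := 2) x = u at this
      revert this
      revert u
      decide
    have e2 := h.map (PadicInt.toZMod (p := 2))
    rw [map_sub, e1, map_one, sub_self] at e2
    exact not_isUnit_zero e2
  apply hne
  -- the space
  let T := EllTate.ellTate (W.map (Int.castRingHom ℚ)) 2
  let b' : Module.Basis (Fin 2) ℤ_[2] T.V := b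
  have h0' : T.ρ σ (b' 0) = x • b' 0 := h0
  have h1' : T.ρ σ (b' 1) = (2 * y') • b' 0 + b' 1 := h1
  obtain ⟨v, hv⟩ := EllTate.proj_surjective (W := W.map (Int.castRingHom ℚ)) (p := 2) 1
    ⟨P, by rw [Submodule.mem_torsionBy_iff, natCast_zsmul, pow_one]; exact hP⟩
  have hkey : T.ρ σ v = v + (2 : ℤ_[2]) • ((b'.repr v 0 * x' + b'.repr v 1 * y') • b' 0) := by
    conv_lhs => rw [← b'.sum_repr v]
    conv_rhs => rw [← b'.sum_repr v]
    simp only [Fin.sum_univ_two, map_add, map_smul, h0', h1', Module.Basis.repr_self,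
      Finsupp.add_apply, Finsupp.smul_apply, smul_eq_mul]
    have hx2 : x = 1 + 2 * x' := by linear_combination hx'
    rw [hx2]
    simp
    module
  have hproj := congrArg (EllTate.proj (W := W.map (Int.castRingHom ℚ)) (p := 2) 1) hkey
  rw [map_add, EllTate.proj_smul, EllTate.proj_ρ, hv] at hproj
  have hz : PadicInt.toZModPow (p := 2) 1 (2 : ℤ_[2]) = 0 := by
    rw [map_ofNat]; decide
  rw [hz, zero_smul, add_zero] at hproj
  exact congrArg Subtype.val hproj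

/-- **Existence of an inertia element with unit entry**: `v_q(Δ)` odd, `q` multiplicative. -/
theorem exists_inertia_unit (W : WeierstrassCurve ℤ) (hΔ0 : W.Δ ≠ 0) {q : ℕ} (hq : q.Prime)
    (hodd : ¬ 2 ∣ padicValInt q W.Δ) (A : ValuationSubring Qb) (hA : A.LiesOverPrime q)
    (b : Module.Basis (Fin 2) ℤ_[2] (EllTate.tate W hΔ0 2).V)
    (hb : ∀ σ ∈ A.inertiaSubgroupIn ℚ, ∃ x y : ℤ_[2],
      (EllTate.tate W hΔ0 2).ρ σ (b 0) = x • b 0 ∧
      (EllTate.tate W hΔ0 2).ρ σ (b 1) = y • b 0 + b 1) :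
    ∃ σ ∈ A.inertiaSubgroupIn ℚ, ∃ y : ℤ_[2], IsUnit y ∧
      (EllTate.tate W hΔ0 2).ρ σ (b 1) = y • b 0 + b 1 := by
  obtain ⟨σ, hσ, P, hP, hne⟩ := exists_inertia_two_ne W hΔ0 hq hodd A hA
  obtain ⟨x, y, h0, h1⟩ := hb σ hσ
  refine ⟨σ, hσ, y, isUnit_of_ne W hΔ0 b ?_ h0 h1 hP hne, h1⟩
  have hd := Tate.det_eq_of_line b ((EllTate.tate W hΔ0 2).ρ σ) (x := x) (z := 1) h0 (by
    rw [h1, one_smul, add_sub_cancel_right]
    exact Submodule.smul_mem _ _ (Submodule.mem_span_singleton_self _))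
  rw [mul_one] at hd
  rw [← hd]
  have : IsUnit ((EllTate.tate W hΔ0 2).ρ σ) := by
    have h3 : IsUnit σ := Group.isUnit σ
    exact h3.map (EllTate.tate W hΔ0 2).ρ
  exact this.map LinearMap.det

end Fermat.Agent.P2.TateLoc
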